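import Mathlib

/-!
# Lib.Frob.H523 — block A, part 1: the ideal counting function of a number field

`idealCount K n` is the number of ideals of `𝓞 K` of absolute norm `n` (the coefficient of
`NumberField.dedekindZeta`).  We prove that it is multiplicative on coprime arguments (A1).
-/

set_option autoImplicit false

open NumberField

namespace Fermat.Agent.Lib.Frob.H523

variable (K : Type*) [Field K] [NumberField K]

/-- Number of integral ideals of norm `n` (the coefficient of `NumberField.dedekindZeta`). -/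
noncomputable def idealCount (n : ℕ) : ℕ :=
  Nat.card {I : Ideal (𝓞 K) // Ideal.absNorm I = n}

instance finite_idealsOfNorm (n : ℕ) : Finite {I : Ideal (𝓞 K) // Ideal.absNorm I = n} :=
  (Ideal.finite_setOfPred_absNorm_eq (S := 𝓞 K) n).to_subtype

theorem idealCount_zero : idealCount K 0 = 1 := by
  unfold idealCount
  rw [Nat.card_eq_one_iff_unique]
  refine ⟨⟨fun a b => ?_⟩, ⟨⟨⊥, Ideal.absNorm_bot⟩⟩⟩
  apply Subtype.ext
  rw [Ideal.absNorm_eq_zero_iff.mp a.2, Ideal.absNorm_eq_zero_iff.mp b.2]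

/-- A1 -/
theorem idealCount_one : idealCount K 1 = 1 := by
  unfold idealCount
  rw [Nat.card_eq_one_iff_unique]
  refine ⟨⟨fun a b => ?_⟩, ⟨⟨⊤, Ideal.absNorm_top⟩⟩⟩
  apply Subtype.ext
  rw [Ideal.absNorm_eq_one_iff.mp a.2, Ideal.absNorm_eq_one_iff.mp b.2]

variable {K}

omit [NumberField K] in
private lemma sup_span_eq_top {m n : ℕ} (h : m.Coprime n) {J : Ideal (𝓞 K)}
    (hJ : ((n : ℕ) : 𝓞 K) ∈ J) : J ⊔ Ideal.span {((m : ℕ) : 𝓞 K)} = ⊤ := by
  rw [Ideal.eq_top_iff_one]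
  have hc : IsCoprime (m : ℤ) (n : ℤ) := Nat.isCoprime_iff_coprime.mpr h
  obtain ⟨a, b, hab⟩ := hc
  have h1 : (1 : 𝓞 K) = (b : 𝓞 K) * (n : 𝓞 K) + (a : 𝓞 K) * (m : 𝓞 K) := by
    have := congrArg (Int.cast : ℤ → 𝓞 K) hab
    push_cast at this
    rw [← this]; ring
  rw [h1]
  refine Ideal.add_mem _ (Ideal.mem_sup_left (Ideal.mul_mem_left _ _ hJ))
    (Ideal.mem_sup_right (Ideal.mul_mem_left _ _ (Ideal.subset_span rfl)))

private lemma absNorm_sup_span {m n : ℕ} (h : m.Coprime n) (hm : m ≠ 0) (hn : n ≠ 0)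
    {I : Ideal (𝓞 K)} (hI : Ideal.absNorm I = m * n) :
    Ideal.absNorm (I ⊔ Ideal.span {((m : ℕ) : 𝓞 K)}) = m ∧
    Ideal.absNorm (I ⊔ Ideal.span {((n : ℕ) : 𝓞 K)}) = n ∧
    (I ⊔ Ideal.span {((m : ℕ) : 𝓞 K)}) * (I ⊔ Ideal.span {((n : ℕ) : 𝓞 K)}) = I := by
  set I₁ := I ⊔ Ideal.span {((m : ℕ) : 𝓞 K)} with hI₁
  set I₂ := I ⊔ Ideal.span {((n : ℕ) : 𝓞 K)} with hI₂
  have hmem : ((m * n : ℕ) : 𝓞 K) ∈ I := hI ▸ Ideal.absNorm_mem I
  have hcop : IsCoprime I₁ I₂ := by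
    rw [Ideal.isCoprime_iff_sup_eq]
    have h1 : I₂ ⊔ Ideal.span {((m : ℕ) : 𝓞 K)} = ⊤ :=
      sup_span_eq_top h (Ideal.mem_sup_right (Ideal.subset_span rfl))
    rw [eq_top_iff, ← h1]
    refine sup_le le_sup_right (le_sup_of_le_left le_sup_right)
  have hprod : I₁ * I₂ = I := by
    apply le_antisymm
    · rw [hI₁, hI₂, Ideal.sup_mul, Ideal.mul_sup, Ideal.mul_sup]
      refine sup_le (sup_le Ideal.mul_le_left Ideal.mul_le_left) (sup_le Ideal.mul_le_right ?_)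
      rw [Ideal.span_singleton_mul_span_singleton, Ideal.span_singleton_le_iff_mem]
      simpa using hmem
    · rw [Ideal.mul_eq_inf_of_coprime (Ideal.isCoprime_iff_sup_eq.mp hcop)]
      exact le_inf le_sup_left le_sup_left
  have hnorm : Ideal.absNorm I₁ * Ideal.absNorm I₂ = m * n := by
    rw [← map_mul, hprod, hI]
  have hd₁ : Ideal.absNorm I₁ ∣ m ^ Module.finrank ℤ (𝓞 K) := by
    rw [← Ideal.absNorm_span_natCast (S := 𝓞 K)]
    exact Ideal.absNorm_dvd_absNorm_of_le le_sup_right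
  have hd₂ : Ideal.absNorm I₂ ∣ n ^ Module.finrank ℤ (𝓞 K) := by
    rw [← Ideal.absNorm_span_natCast (S := 𝓞 K)]
    exact Ideal.absNorm_dvd_absNorm_of_le le_sup_right
  have hc₁ : (Ideal.absNorm I₁).Coprime n :=
    Nat.Coprime.coprime_dvd_left hd₁ (Nat.Coprime.pow_left _ h)
  have hc₂ : (Ideal.absNorm I₂).Coprime m :=
    Nat.Coprime.coprime_dvd_left hd₂ (Nat.Coprime.pow_left _ h.symm)
  have h₁ : Ideal.absNorm I₁ ∣ m := hc₁.dvd_of_dvd_mul_right (hnorm ▸ dvd_mul_right _ _)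
  have h₂ : Ideal.absNorm I₂ ∣ n := hc₂.dvd_of_dvd_mul_left (hnorm ▸ dvd_mul_left _ _)
  have hmpos : 0 < m := Nat.pos_of_ne_zero hm
  have hnpos : 0 < n := Nat.pos_of_ne_zero hn
  have hle₁ : Ideal.absNorm I₁ ≤ m := Nat.le_of_dvd hmpos h₁
  have hle₂ : Ideal.absNorm I₂ ≤ n := Nat.le_of_dvd hnpos h₂
  have hpos₁ : 0 < Ideal.absNorm I₁ := Nat.pos_of_dvd_of_pos h₁ hmpos
  have hpos₂ : 0 < Ideal.absNorm I₂ := Nat.pos_of_dvd_of_pos h₂ hnpos
  refine ⟨?_, ?_, hprod⟩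
  · by_contra hne
    have hlt : Ideal.absNorm I₁ < m := lt_of_le_of_ne hle₁ hne
    nlinarith
  · by_contra hne
    have hlt : Ideal.absNorm I₂ < n := lt_of_le_of_ne hle₂ hne
    nlinarith

private lemma mul_sup_span {m n : ℕ} (h : m.Coprime n)
    {I₁ I₂ : Ideal (𝓞 K)} (h₁ : Ideal.absNorm I₁ = m) (h₂ : Ideal.absNorm I₂ = n) :
    I₁ * I₂ ⊔ Ideal.span {((m : ℕ) : 𝓞 K)} = I₁ := by
  have hm : ((m : ℕ) : 𝓞 K) ∈ I₁ := h₁ ▸ Ideal.absNorm_mem I₁
  have hn : ((n : ℕ) : 𝓞 K) ∈ I₂ := h₂ ▸ Ideal.absNorm_mem I₂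
  apply le_antisymm
  · exact sup_le Ideal.mul_le_left ((Ideal.span_singleton_le_iff_mem _).mpr hm)
  · have htop : I₂ ⊔ Ideal.span {((m : ℕ) : 𝓞 K)} = ⊤ := sup_span_eq_top h hn
    calc I₁ = I₁ * (I₂ ⊔ Ideal.span {((m : ℕ) : 𝓞 K)}) := by rw [htop, Ideal.mul_top]
      _ = I₁ * I₂ ⊔ I₁ * Ideal.span {((m : ℕ) : 𝓞 K)} := Ideal.mul_sup _ _ _
      _ ≤ I₁ * I₂ ⊔ Ideal.span {((m : ℕ) : 𝓞 K)} := sup_le_sup_left Ideal.mul_le_right _

variable (K)

/-- A1: the ideal counting function is multiplicative on coprime arguments. -/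
theorem idealCount_mul_of_coprime {m n : ℕ} (h : m.Coprime n) :
    idealCount K (m * n) = idealCount K m * idealCount K n := by
  rcases Nat.eq_zero_or_pos m with hm | hm
  · subst hm
    have hn : n = 1 := by simpa using h
    subst hn
    simp [idealCount_one]
  rcases Nat.eq_zero_or_pos n with hn | hn
  · subst hn
    have hm' : m = 1 := by simpa using h
    subst hm'
    simp [idealCount_one]
  unfold idealCount
  rw [← Nat.card_prod]
  refine Nat.card_congr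
    { toFun := fun I => (⟨I.1 ⊔ Ideal.span {((m : ℕ) : 𝓞 K)},
          (absNorm_sup_span h hm.ne' hn.ne' I.2).1⟩,
        ⟨I.1 ⊔ Ideal.span {((n : ℕ) : 𝓞 K)}, (absNorm_sup_span h hm.ne' hn.ne' I.2).2.1⟩)
      invFun := fun J => ⟨J.1.1 * J.2.1, by rw [map_mul, J.1.2, J.2.2]⟩
      left_inv := fun I => Subtype.ext (absNorm_sup_span h hm.ne' hn.ne' I.2).2.2
      right_inv := fun J => by
        refine Prod.ext (Subtype.ext ?_) (Subtype.ext ?_)
        · exact mul_sup_span h J.1.2 J.2.2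
        · show J.1.1 * J.2.1 ⊔ Ideal.span {((n : ℕ) : 𝓞 K)} = J.2.1
          rw [mul_comm]
          exact mul_sup_span h.symm J.2.2 J.1.2 }

end Fermat.Agent.Lib.Frob.H523
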