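import Fermat.Agent.Lib.Frob.H523.Zeta

set_option autoImplicit false
set_option linter.style.haveILetI false
open NumberField Filter Topology

namespace Fermat.Agent.Lib.Frob.H523

variable (K : Type*) [Field K] [NumberField K]

lemma summable_shift_pow_mul_geom (d : ℕ) :
    Summable (fun e : ℕ => ((e : ℝ) + 3) ^ d * (1 / 2 : ℝ) ^ e) := by
  have h := summable_pow_mul_geometric_of_norm_lt_one d (r := (1 / 2 : ℝ)) (by norm_num)
  have h3 := (summable_nat_add_iff 3).mpr h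
  have h8 := h3.mul_left 8
  refine h8.congr fun e => ?_
  push_cast
  ring

/-- the constant in the local factor bound -/
noncomputable def tailConst (d : ℕ) : ℝ := ∑' e : ℕ, ((e : ℝ) + 3) ^ d * (1 / 2 : ℝ) ^ e

lemma tailConst_nonneg (d : ℕ) : 0 ≤ tailConst d :=
  tsum_nonneg fun e => by positivity

lemma zetaTerm_tail_le {p : ℕ} (hp : p.Prime) {s : ℝ} (hs : 1 ≤ s) (e : ℕ) :
    zetaTerm K s (p ^ (e + 2)) ≤
      (p : ℝ) ^ (-(2 : ℝ)) * (((e : ℝ) + 3) ^ (Module.finrank ℚ K) * (1 / 2 : ℝ) ^ e) := by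
  unfold zetaTerm
  have hp2 : (2 : ℝ) ≤ p := by exact_mod_cast hp.two_le
  have hp0 : (0 : ℝ) < p := by linarith
  have h1 : (idealCount K (p ^ (e + 2)) : ℝ) ≤ ((e : ℝ) + 3) ^ (Module.finrank ℚ K) := by
    have := idealCount_prime_pow_le K hp (e + 2)
    have h2 : ((idealCount K (p ^ (e + 2)) : ℕ) : ℝ) ≤ (((e + 2 + 1) ^ Module.finrank ℚ K : ℕ) : ℝ) :=
      Nat.cast_le.mpr this
    refine h2.trans (le_of_eq ?_)
    push_cast
    ring
  have hge1 : (1 : ℝ) ≤ ((p ^ (e + 2) : ℕ) : ℝ) := by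
    exact_mod_cast Nat.one_le_pow _ _ hp.pos
  have h2 : (((p ^ (e + 2) : ℕ)) : ℝ) ^ (-s) ≤ (p : ℝ) ^ (-(2 : ℝ)) * (1 / 2 : ℝ) ^ e := by
    calc (((p ^ (e + 2) : ℕ)) : ℝ) ^ (-s) ≤ (((p ^ (e + 2) : ℕ)) : ℝ) ^ (-(1 : ℝ)) :=
          Real.rpow_le_rpow_of_exponent_le hge1 (by linarith)
      _ = ((p : ℝ) ^ 2)⁻¹ * ((p : ℝ)⁻¹) ^ e := by
          rw [Real.rpow_neg_one]
          push_cast
          rw [pow_add, mul_inv, inv_pow]
          ring
      _ ≤ (p : ℝ) ^ (-(2 : ℝ)) * (1 / 2 : ℝ) ^ e := by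
          have h3 : ((p : ℝ) ^ 2)⁻¹ = (p : ℝ) ^ (-(2 : ℝ)) := by
            rw [Real.rpow_neg hp0.le]
            norm_num
          rw [h3]
          have h4 : (p : ℝ)⁻¹ ≤ 1 / 2 := by
            rw [one_div]
            exact inv_anti₀ (by norm_num) hp2
          have h5 : ((p : ℝ)⁻¹) ^ e ≤ (1 / 2 : ℝ) ^ e :=
            pow_le_pow_left₀ (by positivity) h4 e
          exact mul_le_mul_of_nonneg_left h5 (by positivity)
  calc (idealCount K (p ^ (e + 2)) : ℝ) * (((p ^ (e + 2) : ℕ)) : ℝ) ^ (-s)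
      ≤ ((e : ℝ) + 3) ^ (Module.finrank ℚ K) * ((p : ℝ) ^ (-(2 : ℝ)) * (1 / 2 : ℝ) ^ e) :=
        mul_le_mul h1 h2 (by positivity) (by positivity)
    _ = _ := by ring

lemma summable_zetaTerm_tail {p : ℕ} (hp : p.Prime) {s : ℝ} (hs : 1 ≤ s) :
    Summable (fun e : ℕ => zetaTerm K s (p ^ (e + 2))) :=
  Summable.of_nonneg_of_le (fun e => zetaTerm_nonneg K s _) (fun e => zetaTerm_tail_le K hp hs e)
    ((summable_shift_pow_mul_geom _).mul_left _)

lemma summable_zetaTerm_pow {p : ℕ} (hp : p.Prime) {s : ℝ} (hs : 1 ≤ s) :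
    Summable (fun e : ℕ => zetaTerm K s (p ^ e)) :=
  (summable_nat_add_iff 2).mp (summable_zetaTerm_tail K hp hs)

/-- the local Euler factor at `p` -/
noncomputable def localFactor (p : ℕ) (s : ℝ) : ℝ := ∑' e : ℕ, zetaTerm K s (p ^ e)

/-- the tail `∑_{e ≥ 2}` of the local Euler factor -/
noncomputable def localTail (p : ℕ) (s : ℝ) : ℝ := ∑' e : ℕ, zetaTerm K s (p ^ (e + 2))

lemma localFactor_eq {p : ℕ} (hp : p.Prime) {s : ℝ} (hs : 1 ≤ s) :
    localFactor K p s = 1 + zetaTerm K s p + localTail K p s := by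
  unfold localFactor localTail
  rw [← (summable_zetaTerm_pow K hp hs).sum_add_tsum_nat_add 2]
  simp [Finset.sum_range_succ, zetaTerm_one]

lemma localTail_nonneg (p : ℕ) (s : ℝ) : 0 ≤ localTail K p s :=
  tsum_nonneg fun e => zetaTerm_nonneg K s _

lemma localTail_le {p : ℕ} (hp : p.Prime) {s : ℝ} (hs : 1 ≤ s) :
    localTail K p s ≤ tailConst (Module.finrank ℚ K) * (p : ℝ) ^ (-(2 : ℝ)) := by
  unfold localTail tailConst
  rw [mul_comm, ← tsum_mul_left]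
  exact (summable_zetaTerm_tail K hp hs).tsum_le_tsum (fun e => zetaTerm_tail_le K hp hs e)
    ((summable_shift_pow_mul_geom _).mul_left _)

/-- A4: local factor `= 1 + a(p) p^{-s} + O(p^{-2s})`, uniformly in `s ≥ 1`. -/
theorem localFactor_bound : ∃ C : ℝ, ∀ (p : Nat.Primes) (s : ℝ), 1 ≤ s →
    |(∑' e : ℕ, (idealCount K ((p : ℕ) ^ e) : ℝ) * (((p : ℕ) ^ e : ℕ) : ℝ) ^ (-s))
        - 1 - (idealCount K p : ℝ) * ((p : ℕ) : ℝ) ^ (-s)| ≤ C * ((p : ℕ) : ℝ) ^ (-(2 : ℝ)) := by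
  refine ⟨tailConst (Module.finrank ℚ K), fun p s hs => ?_⟩
  have h := localFactor_eq K p.2 hs
  unfold localFactor at h
  unfold zetaTerm at h
  rw [h]
  have : (1 + (idealCount K p : ℝ) * ((p : ℕ) : ℝ) ^ (-s) + localTail K p s) - 1
      - (idealCount K p : ℝ) * ((p : ℕ) : ℝ) ^ (-s) = localTail K p s := by ring
  rw [this, abs_of_nonneg (localTail_nonneg K p s)]
  exact localTail_le K p.2 hs

end Fermat.Agent.Lib.Frob.H523
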