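import Fermat.Agent.Lib.Frob.H523.LocalFactor

set_option autoImplicit false
set_option linter.style.haveILetI false
set_option linter.unusedVariables false
open NumberField Filter Topology

namespace Fermat.Agent.Lib.Frob.H523

/-- `f` is bounded on a right neighbourhood of `1`. -/
def BddNearOne (f : ℝ → ℝ) : Prop := ∃ C : ℝ, ∀ᶠ s in 𝓝[>] (1 : ℝ), |f s| ≤ C

/-- The prime Dirichlet sum `∑_p a(p) p^{-s}`. -/
noncomputable def primeSum (a : ℕ → ℝ) (s : ℝ) : ℝ :=
  ∑' p : Nat.Primes, a p * ((p : ℕ) : ℝ) ^ (-s)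

lemma BddNearOne.of_forall {f : ℝ → ℝ} {C : ℝ} (h : ∀ s : ℝ, 1 < s → |f s| ≤ C) :
    BddNearOne f :=
  ⟨C, eventually_nhdsWithin_of_forall fun s hs => h s hs⟩

lemma BddNearOne.add {f g : ℝ → ℝ} (hf : BddNearOne f) (hg : BddNearOne g) :
    BddNearOne (fun s => f s + g s) := by
  obtain ⟨C, hC⟩ := hf
  obtain ⟨D, hD⟩ := hg
  refine ⟨C + D, ?_⟩
  filter_upwards [hC, hD] with s h1 h2
  exact (abs_add_le _ _).trans (add_le_add h1 h2)

lemma BddNearOne.neg {f : ℝ → ℝ} (hf : BddNearOne f) : BddNearOne (fun s => - f s) := by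
  obtain ⟨C, hC⟩ := hf
  refine ⟨C, ?_⟩
  filter_upwards [hC] with s h1
  rwa [abs_neg]

lemma BddNearOne.sub {f g : ℝ → ℝ} (hf : BddNearOne f) (hg : BddNearOne g) :
    BddNearOne (fun s => f s - g s) := by
  simpa [sub_eq_add_neg] using hf.add hg.neg

lemma BddNearOne.congr' {f g : ℝ → ℝ} (hf : BddNearOne f) (h : ∀ s : ℝ, 1 < s → f s = g s) :
    BddNearOne g := by
  obtain ⟨C, hC⟩ := hf
  refine ⟨C, ?_⟩
  filter_upwards [hC, self_mem_nhdsWithin] with s h1 h2
  rwa [← h s h2]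

variable (K : Type*) [Field K] [NumberField K]

/-! ### elementary inequalities -/

lemma log_one_add_le {x : ℝ} (hx : 0 ≤ x) : Real.log (1 + x) ≤ x := by
  have := Real.log_le_sub_one_of_pos (show (0 : ℝ) < 1 + x by linarith)
  linarith

lemma sub_sq_le_log_one_add {x : ℝ} (hx : 0 ≤ x) : x - x ^ 2 ≤ Real.log (1 + x) := by
  have h1 : (0 : ℝ) < 1 + x := by linarith
  have h2 := Real.one_sub_inv_le_log_of_pos h1
  have h3 : x - x ^ 2 ≤ 1 - (1 + x)⁻¹ := by
    rw [show (1 : ℝ) - (1 + x)⁻¹ = x / (1 + x) by field_simp; ring]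
    rw [le_div_iff₀ h1]
    nlinarith [mul_nonneg hx hx, mul_nonneg (mul_nonneg hx hx) hx]
  linarith

/-! ### bounds for the prime terms -/

lemma zetaTerm_prime_le {p : ℕ} (hp : p.Prime) {s : ℝ} (hs : 1 ≤ s) :
    zetaTerm K s p ≤ (Module.finrank ℚ K : ℝ) * (p : ℝ) ^ (-s) := by
  unfold zetaTerm
  have h := idealCount_prime_le K hp
  have h' : (idealCount K p : ℝ) ≤ (Module.finrank ℚ K : ℝ) := Nat.cast_le.mpr h
  exact mul_le_mul_of_nonneg_right h' (by positivity)

lemma rpow_neg_le_inv {p : ℕ} (hp : p.Prime) {s : ℝ} (hs : 1 ≤ s) :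
    (p : ℝ) ^ (-s) ≤ (p : ℝ)⁻¹ := by
  have hp1 : (1 : ℝ) ≤ p := by exact_mod_cast hp.one_le
  calc (p : ℝ) ^ (-s) ≤ (p : ℝ) ^ (-(1 : ℝ)) :=
        Real.rpow_le_rpow_of_exponent_le hp1 (by linarith)
    _ = (p : ℝ)⁻¹ := Real.rpow_neg_one _

lemma rpow_neg_two_eq (p : ℕ) : (p : ℝ) ^ (-(2 : ℝ)) = ((p : ℝ)⁻¹) ^ 2 := by
  rw [Real.rpow_neg (Nat.cast_nonneg p), inv_pow]
  norm_num

lemma rpow_neg_two_le_inv {p : ℕ} (hp : p.Prime) : (p : ℝ) ^ (-(2 : ℝ)) ≤ (p : ℝ)⁻¹ := by
  have hp1 : (1 : ℝ) ≤ p := by exact_mod_cast hp.one_le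
  calc (p : ℝ) ^ (-(2 : ℝ)) ≤ (p : ℝ) ^ (-(1 : ℝ)) :=
        Real.rpow_le_rpow_of_exponent_le hp1 (by norm_num)
    _ = (p : ℝ)⁻¹ := Real.rpow_neg_one _

/-- the constant bounding `log F_p(s) - a(p) p^{-s}` by `C p^{-2}` -/
noncomputable def logConst (d : ℕ) : ℝ := tailConst d + ((d : ℝ) + tailConst d) ^ 2

lemma logConst_nonneg (d : ℕ) : 0 ≤ logConst d := by
  unfold logConst
  have := tailConst_nonneg d
  positivity

lemma one_le_localFactor {p : ℕ} (hp : p.Prime) {s : ℝ} (hs : 1 ≤ s) :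
    1 ≤ localFactor K p s := by
  rw [localFactor_eq K hp hs]
  have := zetaTerm_nonneg K s p
  have := localTail_nonneg K p s
  linarith

lemma abs_log_localFactor_sub_le {p : ℕ} (hp : p.Prime) {s : ℝ} (hs : 1 ≤ s) :
    |Real.log (localFactor K p s) - zetaTerm K s p| ≤
      logConst (Module.finrank ℚ K) * (p : ℝ) ^ (-(2 : ℝ)) := by
  set d := Module.finrank ℚ K with hd
  set x := zetaTerm K s p + localTail K p s with hx
  have hz0 := zetaTerm_nonneg K s p
  have ht0 := localTail_nonneg K p s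
  have htC := localTail_le K hp hs
  have hC0 := tailConst_nonneg d
  have hx0 : 0 ≤ x := by positivity
  have hF : localFactor K p s = 1 + x := by rw [localFactor_eq K hp hs, hx]; ring
  have hinv0 : (0 : ℝ) ≤ (p : ℝ)⁻¹ := by positivity
  have hxle : x ≤ ((d : ℝ) + tailConst d) * (p : ℝ)⁻¹ := by
    have h1 : zetaTerm K s p ≤ (d : ℝ) * (p : ℝ)⁻¹ :=
      (zetaTerm_prime_le K hp hs).trans
        (mul_le_mul_of_nonneg_left (rpow_neg_le_inv hp hs) (Nat.cast_nonneg d))
    have h2 : localTail K p s ≤ tailConst d * (p : ℝ)⁻¹ :=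
      htC.trans (mul_le_mul_of_nonneg_left (rpow_neg_two_le_inv hp) hC0)
    rw [hx, add_mul]
    exact add_le_add h1 h2
  have hx2 : x ^ 2 ≤ ((d : ℝ) + tailConst d) ^ 2 * (p : ℝ) ^ (-(2 : ℝ)) := by
    rw [rpow_neg_two_eq, ← mul_pow]
    exact pow_le_pow_left₀ hx0 hxle 2
  have hp2 : (0 : ℝ) ≤ (p : ℝ) ^ (-(2 : ℝ)) := by positivity
  rw [hF, abs_le]
  have hup := log_one_add_le hx0
  have hlo := sub_sq_le_log_one_add hx0
  unfold logConst
  rw [add_mul]
  have hsq0 : 0 ≤ ((d : ℝ) + tailConst d) ^ 2 * (p : ℝ) ^ (-(2 : ℝ)) := by positivity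
  have htC0 : 0 ≤ tailConst d * (p : ℝ) ^ (-(2 : ℝ)) := by positivity
  constructor
  · linarith
  · linarith

/-! ### summability over primes -/

lemma summable_primes_rpow_neg_two :
    Summable (fun p : Nat.Primes => ((p : ℕ) : ℝ) ^ (-(2 : ℝ))) :=
  Nat.Primes.summable_rpow.mpr (by norm_num)

theorem summable_primeSum_idealCount {s : ℝ} (hs : 1 < s) :
    Summable (fun p : Nat.Primes => (idealCount K p : ℝ) * ((p : ℕ) : ℝ) ^ (-s)) := by
  refine Summable.of_nonneg_of_le (fun p => zetaTerm_nonneg K s p)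
    (fun p => zetaTerm_prime_le K p.2 hs.le)
    ((Nat.Primes.summable_rpow.mpr (by linarith)).mul_left _)

lemma summable_logDiff {s : ℝ} (hs : 1 ≤ s) :
    Summable (fun p : Nat.Primes => Real.log (localFactor K p s) - zetaTerm K s p) := by
  refine Summable.of_norm_bounded (g := fun p : Nat.Primes =>
      logConst (Module.finrank ℚ K) * ((p : ℕ) : ℝ) ^ (-(2 : ℝ)))
    (summable_primes_rpow_neg_two.mul_left _) (fun p => ?_)
  rw [Real.norm_eq_abs]
  exact abs_log_localFactor_sub_le K p.2 hs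

lemma summable_log_localFactor {s : ℝ} (hs : 1 < s) :
    Summable (fun p : Nat.Primes => Real.log (localFactor K p s)) := by
  have := (summable_logDiff K hs.le).add (summable_primeSum_idealCount K hs)
  refine this.congr fun p => ?_
  unfold zetaTerm
  ring

/-- the real Dedekind zeta value -/
noncomputable def zetaReal (s : ℝ) : ℝ := ∑' n : ℕ, (idealCount K n : ℝ) * (n : ℝ) ^ (-s)

lemma one_le_zetaReal {s : ℝ} (hs : 1 < s) : 1 ≤ zetaReal K s := by
  unfold zetaReal
  have h := (summable_idealCount_rpow K hs).le_tsum 1 (fun n _ => zetaTerm_nonneg K s n)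
  have h1 : zetaTerm K s 1 = 1 := zetaTerm_one K s
  unfold zetaTerm at h1
  rw [h1] at h
  exact h

lemma log_zetaReal_eq {s : ℝ} (hs : 1 < s) :
    Real.log (zetaReal K s) = ∑' p : Nat.Primes, Real.log (localFactor K p s) := by
  have hsum := (summable_log_localFactor K hs).hasSum
  have hprod := hsum.rexp
  have hprod' : HasProd (fun p : Nat.Primes => localFactor K p s)
      (Real.exp (∑' p : Nat.Primes, Real.log (localFactor K p s))) := by
    refine hprod.congr_fun ?_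
    intro p
    simp only [Function.comp_apply]
    rw [Real.exp_log (lt_of_lt_of_le one_pos (one_le_localFactor K p.2 hs.le))]
  have hE := hasProd_localFactor K hs
  have : zetaReal K s = Real.exp (∑' p : Nat.Primes, Real.log (localFactor K p s)) :=
    hE.unique hprod'
  rw [this, Real.log_exp]

/-- the constant bounding `log ζ_K(s) - ∑_p a(p) p^{-s}` -/
noncomputable def primeSumConst : ℝ :=
  ∑' p : Nat.Primes, logConst (Module.finrank ℚ K) * ((p : ℕ) : ℝ) ^ (-(2 : ℝ))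

lemma abs_log_zetaReal_sub_primeSum_le {s : ℝ} (hs : 1 < s) :
    |Real.log (zetaReal K s) - primeSum (fun p => (idealCount K p : ℝ)) s| ≤ primeSumConst K := by
  have h1 : Real.log (zetaReal K s) - primeSum (fun p => (idealCount K p : ℝ)) s
      = ∑' p : Nat.Primes, (Real.log (localFactor K p s) - zetaTerm K s p) := by
    rw [log_zetaReal_eq K hs]
    unfold primeSum
    rw [← (summable_log_localFactor K hs).tsum_sub (summable_primeSum_idealCount K hs)]
    rfl
  rw [h1, ← Real.norm_eq_abs]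
  unfold primeSumConst
  refine tsum_of_norm_bounded (summable_primes_rpow_neg_two.mul_left _).hasSum (fun p => ?_)
  rw [Real.norm_eq_abs]
  exact abs_log_localFactor_sub_le K p.2 hs.le

/-- A5: `log ζ_K(s) - ∑_p a_K(p) p^{-s}` is bounded near `1⁺`. -/
theorem log_zeta_sub_primeSum :
    BddNearOne (fun s => Real.log (∑' n : ℕ, (idealCount K n : ℝ) * (n : ℝ) ^ (-s))
      - primeSum (fun p => (idealCount K p : ℝ)) s) :=
  BddNearOne.of_forall (C := primeSumConst K) fun s hs => abs_log_zetaReal_sub_primeSum_le K hs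

end Fermat.Agent.Lib.Frob.H523
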