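import Fermat.Agent.Lib.Frob.H523.IdealCount

set_option autoImplicit false
set_option linter.style.haveILetI false
open NumberField

namespace Fermat.Agent.Lib.Frob.H523

variable (K : Type*) [Field K] [NumberField K]

lemma span_prime_isMaximal {p : ℕ} (hp : p.Prime) : (Ideal.span {(p : ℤ)}).IsMaximal :=
  PrincipalIdealRing.isMaximal_of_irreducible (Nat.prime_iff_prime_int.mp hp).irreducible

variable {K} in
omit [NumberField K] in
lemma liesOver_of_natCast_mem {p : ℕ} (hp : p.Prime) {P : Ideal (𝓞 K)} (hP : P.IsPrime)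
    (hmem : ((p : ℕ) : 𝓞 K) ∈ P) : P.LiesOver (Ideal.span {(p : ℤ)}) := by
  constructor
  have hmax := span_prime_isMaximal hp
  apply hmax.eq_of_le
  · exact Ideal.comap_ne_top _ hP.ne_top
  · rw [Ideal.span_singleton_le_iff_mem]
    simpa [Ideal.mem_comap] using hmem

lemma card_primesOver_le {p : ℕ} (hp : p.Prime) :
    Nat.card ((Ideal.span {(p : ℤ)}).primesOver (𝓞 K)) ≤ Module.finrank ℚ K := by
  haveI := span_prime_isMaximal hp
  haveI : Fintype ((Ideal.span {(p : ℤ)}).primesOver (𝓞 K)) := inferInstance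
  rw [← RingOfIntegers.rank K, ← Ideal.sum_ramification_inertia_eq_finrank (Ideal.span {(p:ℤ)}) (𝓞 K),
    Nat.card_eq_fintype_card, Fintype.card_eq_sum_ones]
  refine Finset.sum_le_sum fun q _ => ?_
  haveI := q.2.1
  exact Nat.one_le_iff_ne_zero.mpr
    (mul_pos (Ideal.ramificationIdx_pos q.1 ℤ) (Ideal.inertiaDeg_pos q.1 ℤ)).ne'

variable {K} in
/-- a prime factor of an ideal of `p`-power norm lies over `p`, and appears at most `e` times. -/
lemma mem_normalizedFactors_of_absNorm_eq_pow {p : ℕ} (hp : p.Prime) {e : ℕ} {I : Ideal (𝓞 K)}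
    (hI : Ideal.absNorm I = p ^ e) {P : Ideal (𝓞 K)}
    (hP : P ∈ UniqueFactorizationMonoid.normalizedFactors I) :
    P ∈ (Ideal.span {(p : ℤ)}).primesOver (𝓞 K) := by
  have hprime : P.IsPrime := Ideal.isPrime_of_prime (UniqueFactorizationMonoid.prime_of_normalized_factor P hP)
  have hle : I ≤ P := Ideal.le_of_dvd (UniqueFactorizationMonoid.dvd_of_mem_normalizedFactors hP)
  have hmem : ((p ^ e : ℕ) : 𝓞 K) ∈ P := hle (hI ▸ Ideal.absNorm_mem I)
  have hmem' : ((p : ℕ) : 𝓞 K) ∈ P := by
    rw [Nat.cast_pow] at hmem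
    exact hprime.mem_of_pow_mem _ hmem
  exact ⟨hprime, liesOver_of_natCast_mem hp hprime hmem'⟩

variable {K} in
lemma count_normalizedFactors_le {p : ℕ} (hp : p.Prime) {e : ℕ} {I : Ideal (𝓞 K)}
    (hI : Ideal.absNorm I = p ^ e) (P : Ideal (𝓞 K)) :
    Multiset.count P (UniqueFactorizationMonoid.normalizedFactors I) ≤ e := by
  classical
  by_cases hP : P ∈ UniqueFactorizationMonoid.normalizedFactors I
  · obtain ⟨hprime, hlies⟩ := mem_normalizedFactors_of_absNorm_eq_pow hp hI hP
    have hI0 : I ≠ ⊥ := by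
      rintro rfl
      rw [Ideal.absNorm_bot] at hI
      exact (pow_pos hp.pos e).ne hI
    set k := Multiset.count P (UniqueFactorizationMonoid.normalizedFactors I) with hk
    have hdvd : P ^ k ∣ I := by
      have h1 : P ^ k ∣ (UniqueFactorizationMonoid.normalizedFactors I).prod := by
        rw [hk, Multiset.pow_count]
        exact Multiset.prod_dvd_prod_of_le (Multiset.filter_le _ _)
      rwa [Ideal.prod_normalizedFactors_eq_self hI0] at h1
    have hnorm : Ideal.absNorm P ^ k ∣ p ^ e := by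
      rw [← hI, ← map_pow]
      exact map_dvd Ideal.absNorm hdvd
    have hf : p ^ P.inertiaDeg ℤ = Ideal.absNorm P := Ideal.pow_inertiaDeg p P
    have hfpos : 0 < P.inertiaDeg ℤ := Ideal.inertiaDeg_pos P ℤ
    rw [← hf, ← pow_mul] at hnorm
    have := (Nat.pow_dvd_pow_iff_le_right hp.one_lt).mp hnorm
    calc k ≤ P.inertiaDeg ℤ * k := Nat.le_mul_of_pos_left _ hfpos
      _ ≤ e := this
  · rw [Multiset.count_eq_zero_of_notMem hP]
    exact Nat.zero_le _

/-- A2 -/
theorem idealCount_prime_pow_le {p : ℕ} (hp : p.Prime) (e : ℕ) :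
    idealCount K (p ^ e) ≤ (e + 1) ^ Module.finrank ℚ K := by
  classical
  haveI := span_prime_isMaximal hp
  haveI : Fintype ((Ideal.span {(p : ℤ)}).primesOver (𝓞 K)) := inferInstance
  let Φ : {I : Ideal (𝓞 K) // Ideal.absNorm I = p ^ e} →
      ((Ideal.span {(p : ℤ)}).primesOver (𝓞 K) → Fin (e + 1)) :=
    fun I P => ⟨Multiset.count P.1 (UniqueFactorizationMonoid.normalizedFactors I.1),
      Nat.lt_succ_of_le (count_normalizedFactors_le hp I.2 P.1)⟩
  have hΦ : Function.Injective Φ := by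
    intro I J hIJ
    have hI0 : I.1 ≠ ⊥ := by
      intro h
      have := I.2
      rw [h, Ideal.absNorm_bot] at this
      exact (pow_pos hp.pos e).ne this
    have hJ0 : J.1 ≠ ⊥ := by
      intro h
      have := J.2
      rw [h, Ideal.absNorm_bot] at this
      exact (pow_pos hp.pos e).ne this
    apply Subtype.ext
    rw [← Ideal.prod_normalizedFactors_eq_self hI0, ← Ideal.prod_normalizedFactors_eq_self hJ0]
    congr 1
    ext P
    by_cases hP : P ∈ (Ideal.span {(p : ℤ)}).primesOver (𝓞 K)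
    · have := congrArg (fun f => (f ⟨P, hP⟩ : ℕ)) hIJ
      simpa [Φ] using this
    · rw [Multiset.count_eq_zero_of_notMem
          (fun h => hP (mem_normalizedFactors_of_absNorm_eq_pow hp I.2 h)),
        Multiset.count_eq_zero_of_notMem
          (fun h => hP (mem_normalizedFactors_of_absNorm_eq_pow hp J.2 h))]
  calc idealCount K (p ^ e)
      ≤ Nat.card ((Ideal.span {(p : ℤ)}).primesOver (𝓞 K) → Fin (e + 1)) :=
        Nat.card_le_card_of_injective Φ hΦ
    _ = (e + 1) ^ Nat.card ((Ideal.span {(p : ℤ)}).primesOver (𝓞 K)) := by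
        rw [Nat.card_fun, Nat.card_eq_fintype_card (α := Fin (e+1)), Fintype.card_fin]
    _ ≤ (e + 1) ^ Module.finrank ℚ K :=
        Nat.pow_le_pow_right (Nat.succ_pos e) (card_primesOver_le K hp)

/-- A2' -/
theorem idealCount_prime_le {p : ℕ} (hp : p.Prime) :
    idealCount K p ≤ Module.finrank ℚ K := by
  classical
  haveI := span_prime_isMaximal hp
  haveI : Fintype ((Ideal.span {(p : ℤ)}).primesOver (𝓞 K)) := inferInstance
  have hprime : ∀ I : {I : Ideal (𝓞 K) // Ideal.absNorm I = p}, I.1.IsPrime := fun I =>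
    Ideal.isPrime_of_irreducible_absNorm (by rw [I.2]; exact (Nat.prime_iff.mp hp).irreducible)
  let Φ : {I : Ideal (𝓞 K) // Ideal.absNorm I = p} →
      (Ideal.span {(p : ℤ)}).primesOver (𝓞 K) :=
    fun I => ⟨I.1, hprime I, liesOver_of_natCast_mem hp (hprime I) (by
      have := Ideal.absNorm_mem I.1
      rwa [I.2] at this)⟩
  have hΦ : Function.Injective Φ := by
    intro I J hIJ
    have h1 : (Φ I).1 = (Φ J).1 := congrArg Subtype.val hIJ
    exact Subtype.ext h1
  exact (Nat.card_le_card_of_injective Φ hΦ).trans (card_primesOver_le K hp)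

end Fermat.Agent.Lib.Frob.H523
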