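import Fermat.Agent.Lib.Frob.H523.LogZeta

set_option autoImplicit false
set_option linter.style.haveILetI false
set_option linter.unusedVariables false
open NumberField Filter Topology

namespace Fermat.Agent.Lib.Frob.H523

variable (K : Type*) [Field K] [NumberField K]

lemma tendsto_sub_one_mul_zetaReal :
    Tendsto (fun s : ℝ => (s - 1) * zetaReal K s) (𝓝[>] (1 : ℝ)) (𝓝 (dedekindZeta_residue K)) := by
  have h := tendsto_sub_one_mul_dedekindZeta_nhdsGT K
  have h2 : Tendsto (fun s : ℝ => ((((s - 1) * zetaReal K s : ℝ)) : ℂ)) (𝓝[>] (1 : ℝ))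
      (𝓝 ((dedekindZeta_residue K : ℝ) : ℂ)) := by
    refine h.congr' ?_
    filter_upwards [self_mem_nhdsWithin] with s hs
    rw [dedekindZeta_eq_tsum K hs]
    unfold zetaReal
    push_cast
    rfl
  have h3 := (Complex.continuous_re.tendsto _).comp h2
  refine h3.congr fun s => ?_
  simp only [Function.comp_apply, Complex.ofReal_re]

/-- A6: `log ζ_K(s) - log (1/(s-1))` is bounded near `1⁺` (simple pole, positive residue). -/
theorem log_zeta_sub_log :
    BddNearOne (fun s => Real.log (∑' n : ℕ, (idealCount K n : ℝ) * (n : ℝ) ^ (-s))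
      - Real.log (1 / (s - 1))) := by
  have hres := dedekindZeta_residue_pos K
  have h1 := (Real.continuousAt_log hres.ne').tendsto.comp (tendsto_sub_one_mul_zetaReal K)
  have h2 : ∀ᶠ s in 𝓝[>] (1 : ℝ),
      |Real.log ((s - 1) * zetaReal K s) - Real.log (dedekindZeta_residue K)| < 1 := by
    have := (Metric.tendsto_nhds.mp h1) 1 one_pos
    simpa [Real.dist_eq] using this
  refine ⟨|Real.log (dedekindZeta_residue K)| + 1, ?_⟩
  filter_upwards [h2, self_mem_nhdsWithin] with s hs hs1
  have hs1' : (1 : ℝ) < s := hs1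
  have hpos : 0 < s - 1 := by linarith
  have hz : 0 < zetaReal K s := lt_of_lt_of_le one_pos (one_le_zetaReal K hs1')
  have heq : Real.log (∑' n : ℕ, (idealCount K n : ℝ) * (n : ℝ) ^ (-s))
      - Real.log (1 / (s - 1)) = Real.log ((s - 1) * zetaReal K s) := by
    rw [Real.log_mul hpos.ne' hz.ne', one_div, Real.log_inv]
    unfold zetaReal
    ring
  rw [heq]
  have := abs_sub_abs_le_abs_sub (Real.log ((s - 1) * zetaReal K s))
    (Real.log (dedekindZeta_residue K))
  linarith

/-- **(A)** `∑_p a_K(p) p^{-s} = log (1/(s-1)) + O(1)` as `s → 1⁺`. -/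
theorem primeSum_idealCount_sub_log :
    BddNearOne (fun s => primeSum (fun p => (idealCount K p : ℝ)) s - Real.log (1 / (s - 1))) := by
  have h := (log_zeta_sub_log K).sub (log_zeta_sub_primeSum K)
  refine h.congr' fun s _ => ?_
  ring

end Fermat.Agent.Lib.Frob.H523
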