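import Fermat.Agent.Lib.Frob.H523.PrimePow

set_option autoImplicit false
set_option linter.style.haveILetI false
open NumberField Filter Topology

namespace Fermat.Agent.Lib.Frob.H523

variable (K : Type*) [Field K] [NumberField K]

/-- the Dirichlet coefficient term `a(n) n^{-s}` -/
noncomputable def zetaTerm (s : ℝ) (n : ℕ) : ℝ := (idealCount K n : ℝ) * (n : ℝ) ^ (-s)

lemma zetaTerm_nonneg (s : ℝ) (n : ℕ) : 0 ≤ zetaTerm K s n := by
  unfold zetaTerm
  positivity

lemma zetaTerm_zero {s : ℝ} (hs : s ≠ 0) : zetaTerm K s 0 = 0 := by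
  unfold zetaTerm
  rw [Nat.cast_zero, Real.zero_rpow (neg_ne_zero.mpr hs), mul_zero]

lemma zetaTerm_one (s : ℝ) : zetaTerm K s 1 = 1 := by
  unfold zetaTerm
  rw [idealCount_one, Nat.cast_one, Real.one_rpow, mul_one]

lemma zetaTerm_mul (s : ℝ) {m n : ℕ} (h : m.Coprime n) :
    zetaTerm K s (m * n) = zetaTerm K s m * zetaTerm K s n := by
  unfold zetaTerm
  rw [idealCount_mul_of_coprime K h, Nat.cast_mul, Nat.cast_mul,
    Real.mul_rpow (Nat.cast_nonneg m) (Nat.cast_nonneg n)]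
  ring

lemma lseries_term_eq {s : ℝ} (hs : s ≠ 0) (n : ℕ) :
    LSeries.term (fun n ↦ ((idealCount K n : ℝ) : ℂ)) (s : ℂ) n = ((zetaTerm K s n : ℝ) : ℂ) := by
  rcases Nat.eq_zero_or_pos n with hn | hn
  · subst hn
    rw [LSeries.term_zero, zetaTerm_zero K hs, Complex.ofReal_zero]
  · rw [LSeries.term_of_ne_zero hn.ne']
    unfold zetaTerm
    rw [Real.rpow_neg (Nat.cast_nonneg n), Complex.ofReal_mul, Complex.ofReal_inv,
      Complex.ofReal_cpow (Nat.cast_nonneg n), div_eq_mul_inv]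
    push_cast
    rfl

lemma tendsto_sum_idealCount_div :
    Tendsto (fun n : ℕ ↦ (∑ k ∈ Finset.Icc 1 n, (idealCount K k : ℝ)) / (n : ℝ)) atTop
      (𝓝 (dedekindZeta_residue K)) := by
  refine ((Ideal.tendsto_norm_le_div_atTop₀ K).comp tendsto_natCast_atTop_atTop).congr fun n ↦ ?_
  simp only [Function.comp_apply, Nat.cast_le, ← Nat.cast_sum]
  congr
  unfold idealCount
  rw [← add_left_inj 1, ← Ideal.card_norm_le_eq_card_norm_le_add_one,
    show Finset.Icc 1 n = Finset.Ioc 0 n from Finset.Icc_succ_left_eq_Ioc _ _,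
    show 1 = Nat.card {I : Ideal (𝓞 K) // Ideal.absNorm I = 0} by simp [Ideal.absNorm_eq_zero_iff],
    Finset.sum_Ioc_add_eq_sum_Icc (n.zero_le),
    ← Finset.card_preimage_eq_sum_card_image_eq (fun k _ ↦ Ideal.finite_setOfPred_absNorm_eq k)]
  simp [Set.coe_eq_subtype]

lemma lseriesSummable_idealCount {s : ℝ} (hs : 1 < s) :
    LSeriesSummable (fun n ↦ ((idealCount K n : ℝ) : ℂ)) (s : ℂ) := by
  refine LSeriesSummable_of_sum_norm_bigO_and_nonneg ?_ (fun _ ↦ Nat.cast_nonneg _) zero_le_one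
    (by simpa using hs)
  exact Asymptotics.isBigO_atTop_natCast_rpow_of_tendsto_div_rpow
    (by simpa using tendsto_sum_idealCount_div K)

/-- A3: summability of the Dedekind zeta series for real `s > 1`. -/
theorem summable_idealCount_rpow {s : ℝ} (hs : 1 < s) :
    Summable (fun n : ℕ => (idealCount K n : ℝ) * (n : ℝ) ^ (-s)) := by
  have h := lseriesSummable_idealCount K hs
  unfold LSeriesSummable at h
  have hs0 : s ≠ 0 := by linarith
  have h2 : Summable (fun n : ℕ => ((zetaTerm K s n : ℝ) : ℂ)) :=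
    h.congr (fun n => lseries_term_eq K hs0 n)
  exact Complex.summable_ofReal.mp h2

/-- A3': the real Dedekind zeta value. -/
theorem dedekindZeta_eq_tsum {s : ℝ} (hs : 1 < s) :
    dedekindZeta K (s : ℂ) = ((∑' n : ℕ, (idealCount K n : ℝ) * (n : ℝ) ^ (-s) : ℝ) : ℂ) := by
  have hs0 : s ≠ 0 := by linarith
  rw [Complex.ofReal_tsum]
  unfold dedekindZeta LSeries
  refine tsum_congr fun n => ?_
  exact lseries_term_eq K hs0 n

/-- A3'': Euler product over rational primes. -/
theorem hasProd_localFactor {s : ℝ} (hs : 1 < s) :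
    HasProd (fun p : Nat.Primes => ∑' e : ℕ, (idealCount K ((p : ℕ) ^ e) : ℝ) * (((p : ℕ) ^ e : ℕ) : ℝ) ^ (-s))
      (∑' n : ℕ, (idealCount K n : ℝ) * (n : ℝ) ^ (-s)) := by
  have hs0 : s ≠ 0 := by linarith
  have hsum : Summable (fun n => ‖zetaTerm K s n‖) := by
    have := summable_idealCount_rpow K hs
    refine this.congr fun n => ?_
    rw [Real.norm_of_nonneg (zetaTerm_nonneg K s n)]
    rfl
  exact EulerProduct.eulerProduct_hasProd (f := zetaTerm K s) (zetaTerm_one K s)
    (fun h => zetaTerm_mul K s h) hsum (zetaTerm_zero K hs0)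

end Fermat.Agent.Lib.Frob.H523
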